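import Fermat.Agent.Periods.Group.Cocycle

/-!
# A cocycle on cosets with prescribed values at `S` and `U`
-/

set_option autoImplicit false

noncomputable section

namespace Fermat.Agent.Periods

open scoped MatrixGroups
open ModularGroup Matrix.SpecialLinearGroup MulAction

variable {Γ : Subgroup SL(2, ℤ)}

section Build

variable {K : Type*} [AddCommGroup K] {a b : SL(2, ℤ) ⧸ Γ → K}

/-- The permutation translating the fibres by a function. -/
def shiftPerm (g : SL(2, ℤ)) (a : SL(2, ℤ) ⧸ Γ → K) : Equiv.Perm ((SL(2, ℤ) ⧸ Γ) × K) where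
  toFun p := (g • p.1, p.2 + a p.1)
  invFun p := (g⁻¹ • p.1, p.2 - a (g⁻¹ • p.1))
  left_inv p := by simp
  right_inv p := by simp

@[simp] theorem shiftPerm_apply (g : SL(2, ℤ)) (a : SL(2, ℤ) ⧸ Γ → K) (x : SL(2, ℤ) ⧸ Γ) (v : K) :
    shiftPerm g a (x, v) = (g • x, v + a x) := rfl

theorem shiftPerm_pow_eq_one [Fintype (SL(2, ℤ) ⧸ Γ)] (hneg : (-1 : SL(2, ℤ)) ∈ Γ)
    {g : SL(2, ℤ)} {n : ℕ} (hgn : g ^ n = -1) (ha : orbitSum g a = 0) :
    shiftPerm g a ^ n = 1 := by
  have key : ∀ (m : ℕ) (x : SL(2, ℤ) ⧸ Γ) (v : K),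
      (shiftPerm g a ^ m) (x, v) = (g ^ m • x, v + ∑ i ∈ Finset.range m, a (g ^ i • x)) := by
    intro m
    induction m with
    | zero => simp
    | succ m ih =>
      intro x v
      rw [pow_succ', Equiv.Perm.mul_apply, ih, shiftPerm_apply, smul_smul, ← pow_succ',
        Finset.sum_range_succ, add_assoc]
  refine Equiv.ext fun p => ?_
  obtain ⟨x, v⟩ := p
  have hx : g ^ n • x = x := by rw [hgn]; exact neg_one_smul_coset hneg x
  rw [key, hx, sum_range_eq_zero_of_orbitSum ha hx, add_zero]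
  rfl

theorem exists_isCoc [Fintype (SL(2, ℤ) ⧸ Γ)] (hneg : (-1 : SL(2, ℤ)) ∈ Γ)
    (ha : orbitSum S a = 0) (hb : orbitSum genU b = 0) :
    ∃ c : SL(2, ℤ) → SL(2, ℤ) ⧸ Γ → K, IsCoc c ∧ c S = a ∧ c genU = b := by
  have hs : shiftPerm S a * shiftPerm S a = 1 := by
    rw [← pow_two]; exact shiftPerm_pow_eq_one hneg S_pow_two ha
  have hu : shiftPerm genU b ^ 3 = 1 := shiftPerm_pow_eq_one hneg genU_pow_three hb
  set F := liftHom hs hu with hF
  let c : SL(2, ℤ) → SL(2, ℤ) ⧸ Γ → K := fun g x => (F g (x, 0)).2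
  have hSv : ∀ x v, F S (x, v) = ((S : SL(2, ℤ)) • x, v + a x) := fun x v => by
    rw [hF, liftHom_S]; rfl
  have hUv : ∀ x v, F genU (x, v) = ((genU : SL(2, ℤ)) • x, v + b x) := fun x v => by
    rw [hF, liftHom_genU]; rfl
  let P : Subgroup SL(2, ℤ) :=
    { carrier := {g | ∀ x v, F g (x, v) = (g • x, v + c g x)}
      one_mem' := fun x v => by simp [c]
      mul_mem' := fun {g h} hg hh x v => by
        have e : ∀ v, F (g * h) (x, v) = ((g * h) • x, v + (c h x + c g (h • x))) := fun v => by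
          rw [map_mul, Equiv.Perm.mul_apply, hh, hg, mul_smul, add_assoc]
        have h2 : c (g * h) x = c h x + c g (h • x) := by
          show (F (g * h) (x, 0)).2 = _
          rw [e 0, zero_add]
        rw [e v, h2]
      inv_mem' := fun {g} hg x v => by
        have e : ∀ v, F g⁻¹ (x, v) = (g⁻¹ • x, v - c g (g⁻¹ • x)) := fun v => by
          rw [map_inv]
          refine (Equiv.symm_apply_eq (F g)).2 ?_
          rw [hg, smul_inv_smul, sub_add_cancel]
        have h2 : c g⁻¹ x = -c g (g⁻¹ • x) := by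
          show (F g⁻¹ (x, 0)).2 = _
          rw [e 0, zero_sub]
        rw [e v, h2, sub_eq_add_neg] }
  have hSP : S ∈ P := fun x v => by rw [hSv]; simp [c, hSv]
  have hUP : genU ∈ P := fun x v => by rw [hUv]; simp [c, hUv]
  have hTP : T ∈ P := S_inv_mul_genU ▸ mul_mem (inv_mem hSP) hUP
  have hle : Subgroup.closure {S, T} ≤ P := (Subgroup.closure_le _).2 (by
    rintro x (rfl | rfl)
    · exact hSP
    · exact hTP)
  have hall : ∀ g, g ∈ P := fun g => hle (SpecialLinearGroup.SL2Z_generators ▸ Subgroup.mem_top g)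
  refine ⟨c, fun g h x => ?_, ?_, ?_⟩
  · show (F (g * h) (x, 0)).2 = _
    rw [map_mul, Equiv.Perm.mul_apply, hall h x 0, hall g]
    simp [add_comm]
  · funext x; simp [c, hSv]
  · funext x; simp [c, hUv]

end Build

end Fermat.Agent.Periods
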