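import Mathlib.LinearAlgebra.Dimension.RankNullity
import Mathlib.LinearAlgebra.FiniteDimensional.Lemmas
import Mathlib.LinearAlgebra.Pi
import Fermat.Agent.Periods.Group.Build

/-!
# The dimension of the space of cuspidal homomorphisms

For a finite index subgroup `Γ ∋ -1` of `SL(2, ℤ)` and any field `K`, the dimension of the cuspidal
homomorphisms `Γ → K` plus the numbers of orbits of `S`, `S * T` and `T` on the cosets is
`[SL(2, ℤ) : Γ] + 2`.
-/

set_option autoImplicit false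

noncomputable section

namespace Fermat.Agent.Periods

open scoped MatrixGroups
open ModularGroup Matrix.SpecialLinearGroup MulAction Function

variable {Γ : Subgroup SL(2, ℤ)} [Fintype (SL(2, ℤ) ⧸ Γ)] {K : Type*} [Field K]

variable (Γ K) in
/-- Pairs of functions with vanishing sums over the orbits of `S` and of `S * T`. -/
def genData : Submodule K ((SL(2, ℤ) ⧸ Γ → K) × (SL(2, ℤ) ⧸ Γ → K)) :=
  (LinearMap.ker (orbitSumLin K (X := SL(2, ℤ) ⧸ Γ) S)).prod
    (LinearMap.ker (orbitSumLin K (X := SL(2, ℤ) ⧸ Γ) genU))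

theorem mem_genData {p : (SL(2, ℤ) ⧸ Γ → K) × (SL(2, ℤ) ⧸ Γ → K)} :
    p ∈ genData Γ K ↔ orbitSum S p.1 = 0 ∧ orbitSum genU p.2 = 0 := Iff.rfl

variable (Γ K) in
/-- The difference of the two components. -/
def genDiff : genData Γ K →ₗ[K] (SL(2, ℤ) ⧸ Γ → K) :=
  (LinearMap.snd K (SL(2, ℤ) ⧸ Γ → K) (SL(2, ℤ) ⧸ Γ → K) -
    LinearMap.fst K (SL(2, ℤ) ⧸ Γ → K) (SL(2, ℤ) ⧸ Γ → K)).comp (genData Γ K).subtype

variable (Γ K) in
/-- The orbit sums of `T`, in terms of the values at `S` and `S * T`. -/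
def cuspSum : genData Γ K →ₗ[K] (CyclicOrbits T (SL(2, ℤ) ⧸ Γ) → K) :=
  (orbitSumLin K T).comp (genDiff Γ K)

theorem cuspSum_apply (d : genData Γ K) :
    cuspSum Γ K d = orbitSum T d.1.2 - orbitSum T d.1.1 :=
  orbitSum_sub T d.1.2 d.1.1

theorem coc_T {c : SL(2, ℤ) → SL(2, ℤ) ⧸ Γ → K} (hc : IsCoc c) :
    orbitSum T (c genU) - orbitSum T (c S) = orbitSum T (c T) := by
  have h : c genU = (fun x => c S ((T : SL(2, ℤ)) • x)) + c T := by
    funext x; rw [genU, hc]; rfl
  rw [h, orbitSum_add, orbitSum_comp_smul, add_sub_cancel_left]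

/-- The coboundary of a function, as a pair. -/
theorem orbitSum_coboundary (g : SL(2, ℤ)) (f : SL(2, ℤ) ⧸ Γ → K) :
    orbitSum g (fun x => f (g • x) - f x) = 0 := by
  rw [show (fun x => f (g • x) - f x) = (fun x => f (g • x)) - f from rfl, orbitSum_sub,
    orbitSum_comp_smul, sub_self]

variable (Γ K) in
/-- The coboundaries. -/
def cobound : (SL(2, ℤ) ⧸ Γ → K) →ₗ[K] LinearMap.ker (cuspSum Γ K) where
  toFun f := ⟨⟨(fun x => f ((S : SL(2, ℤ)) • x) - f x, fun x => f (genU • x) - f x),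
    mem_genData.2 ⟨orbitSum_coboundary S f, orbitSum_coboundary genU f⟩⟩, by
      rw [LinearMap.mem_ker, cuspSum_apply]
      let c : SL(2, ℤ) → SL(2, ℤ) ⧸ Γ → K := fun g x => f (g • x) - f x
      have hc : IsCoc c := fun g h x => by simp [c, mul_smul]
      exact (coc_T hc).trans (orbitSum_coboundary T f)⟩
  map_add' f f' := by
    apply Subtype.ext; apply Subtype.ext
    refine Prod.ext ?_ ?_ <;> funext x <;> simp <;> ring
  map_smul' r f := by
    apply Subtype.ext; apply Subtype.ext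
    refine Prod.ext ?_ ?_ <;> funext x <;> simp <;> ring

omit [Fintype (SL(2, ℤ) ⧸ Γ)] [Field K] in
theorem forall_smul_eq_of_generators (f : SL(2, ℤ) ⧸ Γ → K)
    (hS : ∀ x, f ((S : SL(2, ℤ)) • x) = f x) (hU : ∀ x, f (genU • x) = f x)
    (x : SL(2, ℤ) ⧸ Γ) : f x = f (baseCoset Γ) := by
  let P : Subgroup SL(2, ℤ) :=
    { carrier := {g | ∀ y, f (g • y) = f y}
      one_mem' := fun y => by rw [one_smul]
      mul_mem' := fun {a b} ha hb y => by rw [mul_smul, ha, hb]
      inv_mem' := fun {a} ha y => by rw [← ha (a⁻¹ • y), smul_inv_smul] }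
  have hT : T ∈ P := S_inv_mul_genU ▸ mul_mem (inv_mem (show S ∈ P from hS)) hU
  have hle : Subgroup.closure {S, T} ≤ P := (Subgroup.closure_le _).2 (by
    rintro y (rfl | rfl)
    · exact hS
    · exact hT)
  obtain ⟨g, rfl⟩ := exists_smul_baseCoset x
  exact hle (SpecialLinearGroup.SL2Z_generators ▸ Subgroup.mem_top g) _

theorem finrank_range_cobound :
    Module.finrank K (LinearMap.range (cobound Γ K)) + 1 = Nat.card (SL(2, ℤ) ⧸ Γ) := by
  have hker : LinearMap.ker (cobound Γ K) = Submodule.span K {fun _ => (1 : K)} := by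
    ext f
    rw [Submodule.mem_span_singleton, LinearMap.mem_ker]
    constructor
    · intro h
      have h1 := congrArg (fun d : LinearMap.ker (cuspSum Γ K) => d.1.1) h
      simp [cobound, Prod.ext_iff, funext_iff, sub_eq_zero] at h1
      exact ⟨f (baseCoset Γ), funext fun x => by
        simp [forall_smul_eq_of_generators f h1.1 h1.2 x]⟩
    · rintro ⟨r, rfl⟩
      apply Subtype.ext; apply Subtype.ext
      simp [cobound, funext_iff]
  have h := LinearMap.finrank_range_add_finrank_ker (K := K)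
    (V := SL(2, ℤ) ⧸ Γ → K) (V₂ := LinearMap.ker (cuspSum Γ K)) (cobound Γ K)
  rw [hker, finrank_span_singleton (fun h => one_ne_zero (congrFun h (baseCoset Γ)))] at h
  rw [Module.finrank_fintype_fun_eq_card, ← Nat.card_eq_fintype_card] at h
  exact h

theorem ker_totalSum_le_range_genDiff :
    LinearMap.ker (totalSum K (SL(2, ℤ) ⧸ Γ)) ≤ LinearMap.range (genDiff Γ K) := by
  classical
  let e : SL(2, ℤ) ⧸ Γ → (SL(2, ℤ) ⧸ Γ → K) := fun x => Pi.single x 1
  have hmem : ∀ (g : SL(2, ℤ)) (x : SL(2, ℤ) ⧸ Γ), orbitSum g (e (g • x) - e x) = 0 := by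
    intro g x
    funext o
    simp only [orbitSum, e, Pi.zero_apply, Pi.sub_apply, Finset.sum_sub_distrib, Finset.sum_pi_single',
      Finset.mem_filter, Finset.mem_univ, true_and, cyclicOrbitOf_smul, sub_self]
  let P : Subgroup SL(2, ℤ) :=
    { carrier := {g | ∀ x, e (g • x) - e x ∈ LinearMap.range (genDiff Γ K)}
      one_mem' := fun x => by simp
      mul_mem' := fun {a b} ha hb x => by
        have := add_mem (ha (b • x)) (hb x)
        rwa [sub_add_sub_cancel, ← mul_smul] at this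
      inv_mem' := fun {a} ha x => by
        have := neg_mem (ha (a⁻¹ • x))
        rwa [neg_sub, smul_inv_smul] at this }
  have hS : S ∈ P := fun x => by
    refine ⟨⟨(-(e ((S : SL(2, ℤ)) • x) - e x), 0), mem_genData.2 ⟨?_, ?_⟩⟩, ?_⟩
    · show orbitSum S (-(e ((S : SL(2, ℤ)) • x) - e x)) = 0
      rw [show -(e ((S : SL(2, ℤ)) • x) - e x) = 0 - (e ((S : SL(2, ℤ)) • x) - e x) by simp,
        orbitSum_sub, hmem, sub_zero]
      funext o; simp [orbitSum]
    · funext o; simp [orbitSum]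
    · simp [genDiff]
  have hU : genU ∈ P := fun x => by
    refine ⟨⟨(0, e (genU • x) - e x), mem_genData.2 ⟨?_, hmem genU x⟩⟩, ?_⟩
    · funext o; simp [orbitSum]
    · simp [genDiff]
  have hT : T ∈ P := S_inv_mul_genU ▸ mul_mem (inv_mem hS) hU
  have hle : Subgroup.closure {S, T} ≤ P := (Subgroup.closure_le _).2 (by
    rintro y (rfl | rfl)
    · exact hS
    · exact hT)
  intro f hf
  rw [LinearMap.mem_ker, totalSum_apply] at hf
  have hf' : f = ∑ x, f x • (e x - e (baseCoset Γ)) := by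
    simp_rw [smul_sub]
    rw [Finset.sum_sub_distrib, ← Finset.sum_smul, hf, zero_smul, sub_zero]
    funext y
    simp [e, Finset.sum_apply, Pi.single_apply]
  rw [hf']
  refine Submodule.sum_mem _ fun x _ => Submodule.smul_mem _ _ ?_
  obtain ⟨g, rfl⟩ := exists_smul_baseCoset x
  exact hle (SpecialLinearGroup.SL2Z_generators ▸ Subgroup.mem_top g) _

theorem finrank_range_cuspSum :
    Module.finrank K (LinearMap.range (cuspSum Γ K)) + 1 =
      Nat.card (CyclicOrbits T (SL(2, ℤ) ⧸ Γ)) := by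
  classical
  let : Fintype (CyclicOrbits T (SL(2, ℤ) ⧸ Γ)) := Fintype.ofFinite _
  have hne : Nonempty (CyclicOrbits T (SL(2, ℤ) ⧸ Γ)) := ⟨cyclicOrbitOf T (baseCoset Γ)⟩
  suffices h : LinearMap.range (cuspSum Γ K) = LinearMap.ker (totalSum K _) by
    rw [h]; exact finrank_ker_totalSum K _
  refine le_antisymm ?_ ?_
  · rintro _ ⟨d, rfl⟩
    rw [LinearMap.mem_ker, totalSum_apply, cuspSum_apply]
    simp only [Pi.sub_apply, Finset.sum_sub_distrib, sum_orbitSum]
    let : Fintype (CyclicOrbits S (SL(2, ℤ) ⧸ Γ)) := Fintype.ofFinite _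
    let : Fintype (CyclicOrbits genU (SL(2, ℤ) ⧸ Γ)) := Fintype.ofFinite _
    rw [← sum_orbitSum K genU d.1.2, ← sum_orbitSum K S d.1.1, (mem_genData.1 d.2).1,
      (mem_genData.1 d.2).2]
    simp
  · intro v hv
    obtain ⟨f, rfl⟩ := orbitSumLin_surjective K T v
    rw [LinearMap.mem_ker, totalSum_apply, orbitSumLin_apply, sum_orbitSum] at hv
    obtain ⟨d, rfl⟩ := ker_totalSum_le_range_genDiff (LinearMap.mem_ker.2 hv)
    exact ⟨d, rfl⟩

theorem finrank_genData :
    Module.finrank K (genData Γ K) + Nat.card (CyclicOrbits S (SL(2, ℤ) ⧸ Γ)) +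
      Nat.card (CyclicOrbits genU (SL(2, ℤ) ⧸ Γ)) = 2 * Nat.card (SL(2, ℤ) ⧸ Γ) := by
  have h : Module.finrank K (genData Γ K) =
      Module.finrank K (LinearMap.ker (orbitSumLin K (X := SL(2, ℤ) ⧸ Γ) S)) +
      Module.finrank K (LinearMap.ker (orbitSumLin K (X := SL(2, ℤ) ⧸ Γ) genU)) := by
    rw [← Module.finrank_prod]
    exact LinearEquiv.finrank_eq
      { toFun := fun p => (⟨p.1.1, p.2.1⟩, ⟨p.1.2, p.2.2⟩)
        invFun := fun p => ⟨(p.1.1, p.2.1), p.1.2, p.2.2⟩
        left_inv := fun _ => rfl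
        right_inv := fun _ => rfl
        map_add' := fun _ _ => rfl
        map_smul' := fun _ _ => rfl }
  have h1 := finrank_ker_orbitSumLin K (X := SL(2, ℤ) ⧸ Γ) S
  have h2 := finrank_ker_orbitSumLin K (X := SL(2, ℤ) ⧸ Γ) genU
  omega

variable (Γ K) in
/-- The values at `S` and `S * T` of the cocycle of a cuspidal homomorphism. -/
def toGenData : cuspidalHoms K Γ K →ₗ[K] LinearMap.ker (cuspSum Γ K) where
  toFun φ := ⟨⟨(homCoc φ.1 S, homCoc φ.1 genU), mem_genData.2
      ⟨orbitSum_homCoc _ φ.2 trace_S_pow_sq_le, orbitSum_homCoc _ φ.2 trace_genU_pow_sq_le⟩⟩, by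
    rw [LinearMap.mem_ker, cuspSum_apply]
    exact (coc_T (isCoc_homCoc φ.1)).trans (orbitSum_homCoc _ φ.2 fun w => by
      rw [← zpow_natCast]; exact (trace_T_zpow_sq _).le)⟩
  map_add' φ ψ := rfl
  map_smul' r φ := rfl

theorem mkQ_comp_bijective {R M D : Type*} [Ring R] [AddCommGroup M] [AddCommGroup D] [Module R M]
    [Module R D] (T : M →ₗ[R] D) (C : Submodule R D) (h1 : ∀ m, T m ∈ C → m = 0)
    (h2 : ∀ d, ∃ m, T m - d ∈ C) : Bijective (C.mkQ.comp T) := by
  refine ⟨(injective_iff_map_eq_zero _).2 fun m hm => h1 m ((Submodule.Quotient.mk_eq_zero C).1 hm),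
    fun q => ?_⟩
  obtain ⟨d, rfl⟩ := C.mkQ_surjective q
  obtain ⟨m, hm⟩ := h2 d
  exact ⟨m, (Submodule.Quotient.eq C).2 hm⟩

theorem mkQ_comp_toGenData_bijective (hneg : (-1 : SL(2, ℤ)) ∈ Γ) :
    Bijective ((Submodule.mkQ (R := K) (M := LinearMap.ker (cuspSum Γ K))
      (LinearMap.range (cobound Γ K))).comp (toGenData Γ K)) := by
  refine mkQ_comp_bijective (R := K) (D := LinearMap.ker (cuspSum Γ K)) (toGenData Γ K) _
    (fun φ hφ => ?_) (fun d => ?_)
  · obtain ⟨f, hf⟩ := LinearMap.mem_range.1 hφ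
    have h1 := congrArg (fun d : LinearMap.ker (cuspSum Γ K) => d.1.1) hf
    simp only [cobound, toGenData, LinearMap.coe_mk, AddHom.coe_mk, Prod.ext_iff] at h1
    have hc : IsCoc (fun g x => f (g • x) - f x : SL(2, ℤ) → SL(2, ℤ) ⧸ Γ → K) := fun g h x => by
      simp [mul_smul]
    have e := hc.eq_of_generators (isCoc_homCoc φ.1) h1.1 h1.2
    apply Subtype.ext
    refine AddMonoidHom.ext fun γ => ?_
    obtain ⟨γ, rfl⟩ := Additive.ofMul.surjective γ
    have h2 := DFunLike.congr_fun (toHom_homCoc φ.1) (Additive.ofMul γ)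
    rw [IsCoc.toHom_apply] at h2
    rw [← h2, ← congrFun (congrFun e (γ : SL(2, ℤ))) (baseCoset Γ),
      (smul_baseCoset_eq_iff _).2 γ.2, sub_self]
    rfl
  · obtain ⟨⟨⟨a, b⟩, hab⟩, hd⟩ := d
    obtain ⟨c, hc, rfl, rfl⟩ := exists_isCoc hneg (mem_genData.1 hab).1 (mem_genData.1 hab).2
    have hT : orbitSum T (c T) = 0 := by
      rw [LinearMap.mem_ker, cuspSum_apply] at hd
      rw [← coc_T hc]; exact hd
    refine ⟨⟨hc.toHom, hc.isCuspidalHom_toHom hneg (mem_genData.1 hab).1 (mem_genData.1 hab).2 hT⟩,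
      ?_⟩
    refine LinearMap.mem_range.2 ⟨fun x => -c x.out (baseCoset Γ), ?_⟩
    have key : ∀ g x, homCoc hc.toHom g x =
        c g x + (c x.out (baseCoset Γ) - c (g • x).out (baseCoset Γ)) := by
      intro g x
      rw [homCoc, IsCoc.toHom_apply]
      show c ((g • x).out⁻¹ * g * x.out) _ = _
      rw [hc, smul_baseCoset_out, hc]
      have := hc.apply_inv (g • x).out (baseCoset Γ)
      rw [smul_baseCoset_out] at this
      rw [eq_neg_of_add_eq_zero_left this]
      ring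
    apply Subtype.ext; apply Subtype.ext
    refine Prod.ext ?_ ?_ <;> funext x
    · show -c ((S : SL(2, ℤ)) • x).out (baseCoset Γ) - -c x.out (baseCoset Γ) =
        homCoc hc.toHom S x - c S x
      rw [key]; ring
    · show -c (genU • x).out (baseCoset Γ) - -c x.out (baseCoset Γ) =
        homCoc hc.toHom genU x - c genU x
      rw [key]; ring

theorem finite_cuspidalHoms_of_finiteIndex (hneg : (-1 : SL(2, ℤ)) ∈ Γ) :
    Module.Finite K (cuspidalHoms K Γ K) :=
  Module.Finite.of_injective _ (mkQ_comp_toGenData_bijective hneg).1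

/-- The Euler characteristic formula. -/
theorem finrank_cuspidalHoms_add (hneg : (-1 : SL(2, ℤ)) ∈ Γ) :
    Module.finrank K (cuspidalHoms K Γ K) + Nat.card (CyclicOrbits S (SL(2, ℤ) ⧸ Γ)) +
      Nat.card (CyclicOrbits genU (SL(2, ℤ) ⧸ Γ)) + Nat.card (CyclicOrbits T (SL(2, ℤ) ⧸ Γ)) =
      Nat.card (SL(2, ℤ) ⧸ Γ) + 2 := by
  have e := LinearEquiv.finrank_eq (LinearEquiv.ofBijective _ (mkQ_comp_toGenData_bijective
    (K := K) hneg))
  have h1 := Submodule.finrank_quotient_add_finrank (R := K) (M := LinearMap.ker (cuspSum Γ K))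
    (LinearMap.range (cobound Γ K))
  have h2 := LinearMap.finrank_range_add_finrank_ker (cuspSum Γ K)
  have h3 := finrank_range_cobound (Γ := Γ) (K := K)
  have h4 := finrank_range_cuspSum (Γ := Γ) (K := K)
  have h5 := finrank_genData (Γ := Γ) (K := K)
  omega

end Fermat.Agent.Periods
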