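import Mathlib.Data.ZMod.QuotientGroup
import Mathlib.LinearAlgebra.FiniteDimensional.Basic
import Mathlib.LinearAlgebra.FiniteDimensional.Lemmas
import Mathlib.LinearAlgebra.Dimension.Constructions
import Mathlib.Algebra.Module.LinearMap.Basic

/-!
# Sums over the orbits of a cyclic group acting on a finite set
-/

set_option autoImplicit false

noncomputable section

namespace Fermat.Agent.Periods

open MulAction Function

variable {G X : Type*} [Group G] [MulAction G X] [Fintype X]

/-- The orbits of the cyclic group generated by `g`. -/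
abbrev CyclicOrbits (g : G) (X : Type*) [MulAction G X] : Type _ :=
  orbitRel.Quotient (Subgroup.zpowers g) X

/-- The orbit of a point. -/
abbrev cyclicOrbitOf (g : G) (x : X) : CyclicOrbits g X := Quotient.mk'' x

omit [Fintype X] in
theorem cyclicOrbitOf_eq_iff {g : G} {x y : X} :
    cyclicOrbitOf g y = cyclicOrbitOf g x ↔ ∃ k : ℤ, g ^ k • x = y := by
  rw [cyclicOrbitOf, cyclicOrbitOf, Quotient.eq'', orbitRel_apply]
  constructor
  · rintro ⟨⟨_, k, rfl⟩, h⟩; exact ⟨k, h⟩
  · rintro ⟨k, h⟩; exact ⟨⟨g ^ k, k, rfl⟩, h⟩

omit [Fintype X] in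
theorem cyclicOrbitOf_smul (g : G) (x : X) : cyclicOrbitOf g (g • x) = cyclicOrbitOf g x :=
  cyclicOrbitOf_eq_iff.2 ⟨1, by rw [zpow_one]⟩

variable {A : Type*} [AddCommGroup A]

open scoped Classical in
/-- The sum of `h` over an orbit. -/
def orbitSum (g : G) (h : X → A) (o : CyclicOrbits g X) : A :=
  ∑ x ∈ Finset.univ.filter (fun x => cyclicOrbitOf g x = o), h x

theorem orbitSum_add (g : G) (h h' : X → A) : orbitSum g (h + h') = orbitSum g h + orbitSum g h' := by
  funext o; simp [orbitSum, Finset.sum_add_distrib]

theorem orbitSum_sub (g : G) (h h' : X → A) : orbitSum g (h - h') = orbitSum g h - orbitSum g h' := by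
  funext o; simp [orbitSum, Finset.sum_sub_distrib]

theorem orbitSum_comp_smul (g : G) (h : X → A) :
    orbitSum g (fun x => h (g • x)) = orbitSum g h := by
  classical
  funext o
  refine Finset.sum_equiv (MulAction.toPerm g) (fun x => ?_) (fun x _ => rfl)
  simp [cyclicOrbitOf_smul]

theorem sum_range_period (g : G) (h : X → A) (x : X) :
    ∑ i ∈ Finset.range (minimalPeriod (g • ·) x), h (g ^ i • x) =
      orbitSum g h (cyclicOrbitOf g x) := by
  classical
  have hper : NeZero (minimalPeriod (g • ·) x) := MulAction.minimalPeriod_pos g x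
  refine Finset.sum_bij (fun i _ => g ^ i • x) (fun i _ => ?_) (fun i hi j hj hij => ?_)
    (fun y hy => ?_) (fun i _ => rfl)
  · simp only [Finset.mem_filter, Finset.mem_univ, true_and]
    exact cyclicOrbitOf_eq_iff.2 ⟨i, by rw [zpow_natCast]⟩
  · rw [Finset.mem_range] at hi hj
    refine iterate_injOn_Iio_minimalPeriod (f := (g • ·)) (x := x) hi hj ?_
    simp only [smul_iterate]
    exact hij
  · simp only [Finset.mem_filter, Finset.mem_univ, true_and] at hy
    obtain ⟨k, rfl⟩ := cyclicOrbitOf_eq_iff.1 hy
    have hpos : 0 < (minimalPeriod (g • ·) x : ℤ) := by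
      exact_mod_cast Nat.pos_of_ne_zero hper.out
    refine ⟨(k % (minimalPeriod (g • ·) x : ℤ)).toNat, ?_, ?_⟩
    · rw [Finset.mem_range]
      have := Int.emod_lt_of_pos k hpos
      have := Int.emod_nonneg k hpos.ne'
      omega
    · rw [← zpow_natCast, Int.toNat_of_nonneg (Int.emod_nonneg k hpos.ne'),
        zpow_smul_mod_minimalPeriod]

theorem sum_range_eq_zero_of_orbitSum {g : G} {h : X → A} (hh : orbitSum g h = 0) {x : X} {n : ℕ}
    (hn : g ^ n • x = x) : ∑ i ∈ Finset.range n, h (g ^ i • x) = 0 := by
  obtain ⟨q, rfl⟩ := pow_smul_eq_iff_minimalPeriod_dvd.1 hn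
  set w := minimalPeriod (g • ·) x with hw
  have hwx : g ^ w • x = x := pow_smul_eq_iff_minimalPeriod_dvd.2 dvd_rfl
  clear hn
  induction q with
  | zero => simp
  | succ q ih =>
    rw [Nat.mul_succ, Finset.sum_range_add, ih, zero_add]
    have e : ∀ i, g ^ (w * q + i) • x = g ^ i • x := fun i => by
      rw [Nat.add_comm, pow_add, mul_smul,
        pow_smul_eq_iff_minimalPeriod_dvd.2 (dvd_mul_right w q)]
    simp_rw [e]
    rw [hw, sum_range_period, hh, Pi.zero_apply]

section Linear

variable (K : Type*) [Field K]

/-- `orbitSum` as a linear map. -/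
def orbitSumLin (g : G) : (X → K) →ₗ[K] (CyclicOrbits g X → K) where
  toFun := orbitSum g
  map_add' := orbitSum_add g
  map_smul' c h := by funext o; simp [orbitSum, Finset.mul_sum]

@[simp] theorem orbitSumLin_apply (g : G) (h : X → K) : orbitSumLin K g h = orbitSum g h := rfl

theorem orbitSumLin_surjective (g : G) : Surjective (orbitSumLin K g : (X → K) →ₗ[K] _) := by
  classical
  intro v
  refine ⟨fun x => if x = Quotient.out (cyclicOrbitOf g x) then v (cyclicOrbitOf g x) else 0, ?_⟩
  funext o
  rw [orbitSumLin_apply, orbitSum, Finset.sum_eq_single (Quotient.out o)]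
  · have : cyclicOrbitOf g (Quotient.out o) = o := Quotient.out_eq' o
    rw [this, if_pos rfl]
  · intro x hx hne
    simp only [Finset.mem_filter, Finset.mem_univ, true_and] at hx
    rw [hx, if_neg hne]
  · intro hx
    exact absurd (by simp) hx

theorem finrank_ker_orbitSumLin (g : G) :
    Module.finrank K (LinearMap.ker (orbitSumLin K g : (X → K) →ₗ[K] _)) +
      Nat.card (CyclicOrbits g X) = Nat.card X := by
  classical
  have h := LinearMap.finrank_range_add_finrank_ker (orbitSumLin K g : (X → K) →ₗ[K] _)
  rw [LinearMap.range_eq_top.2 (orbitSumLin_surjective K g), finrank_top] at h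
  simp only [Module.finrank_fintype_fun_eq_card, ← Nat.card_eq_fintype_card] at h
  omega

/-- The sum of all values. -/
def totalSum (Y : Type*) [Fintype Y] : (Y → K) →ₗ[K] K where
  toFun h := ∑ y, h y
  map_add' h h' := by simp [Finset.sum_add_distrib]
  map_smul' c h := by simp [Finset.mul_sum]

@[simp] theorem totalSum_apply (Y : Type*) [Fintype Y] (h : Y → K) : totalSum K Y h = ∑ y, h y :=
  rfl

theorem finrank_ker_totalSum (Y : Type*) [Fintype Y] [Nonempty Y] :
    Module.finrank K (LinearMap.ker (totalSum K Y)) + 1 = Nat.card Y := by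
  classical
  have hs : Surjective (totalSum K Y) := fun c =>
    ⟨Pi.single (Classical.arbitrary Y) c, by simp⟩
  have h := LinearMap.finrank_range_add_finrank_ker (totalSum K Y)
  rw [LinearMap.range_eq_top.2 hs, finrank_top, Module.finrank_self] at h
  simp only [Module.finrank_fintype_fun_eq_card, ← Nat.card_eq_fintype_card] at h
  omega

theorem sum_orbitSum (g : G) [Fintype (CyclicOrbits g X)] (h : X → K) :
    ∑ o, orbitSum g h o = ∑ x, h x := by
  classical
  exact Finset.sum_fiberwise _ _ _

end Linear

section Count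

variable (g : G) (p : ℕ)

open scoped Classical in
/-- If `g ^ p` acts trivially, `p` prime, every orbit has `1` or `p` points. -/
theorem mul_card_cyclicOrbits [hp : Fact p.Prime] (h : ∀ x : X, g ^ p • x = x) :
    p * Nat.card (CyclicOrbits g X) = Nat.card X + (p - 1) * Nat.card {x : X // g • x = x} := by
  classical
  have : Fintype (CyclicOrbits g X) := Fintype.ofFinite _
  have hcard : ∀ o : CyclicOrbits g X, p = (Finset.univ.filter (fun x => cyclicOrbitOf g x = o)).card
      + (p - 1) * ((Finset.univ.filter (fun x : X => g • x = x)).filter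
          (fun x => cyclicOrbitOf g x = o)).card := by
    intro o
    obtain ⟨x, rfl⟩ : ∃ x, cyclicOrbitOf g x = o := ⟨o.out, Quotient.out_eq' o⟩
    have hper : (Finset.univ.filter (fun y => cyclicOrbitOf g y = cyclicOrbitOf g x)).card =
        minimalPeriod (g • ·) x := by
      have := sum_range_period (A := ℤ) g (fun _ => (1 : ℤ)) x
      simpa [orbitSum] using this.symm
    have hdvd : minimalPeriod (g • ·) x ∣ p := pow_smul_eq_iff_minimalPeriod_dvd.1 (h x)
    have hp1 : 1 ≤ p := hp.out.one_le
    have hfix : ∀ y, g • y = y → cyclicOrbitOf g y = cyclicOrbitOf g x → y = x := by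
      intro y hy hyo
      obtain ⟨k, hk⟩ := cyclicOrbitOf_eq_iff.1 hyo.symm
      rw [← hk, zpow_smul_eq_iff_minimalPeriod_dvd.2]
      rw [show minimalPeriod (g • ·) y = 1 from minimalPeriod_eq_one_iff_isFixedPt.2 hy]
      simp
    rcases hp.out.eq_one_or_self_of_dvd _ hdvd with h1 | h1
    · have hx : g • x = x := minimalPeriod_eq_one_iff_isFixedPt.1 h1
      have : (Finset.univ.filter (fun y : X => g • y = y)).filter
          (fun y => cyclicOrbitOf g y = cyclicOrbitOf g x) = {x} := by
        ext y
        simp only [Finset.mem_filter, Finset.mem_univ, true_and, Finset.mem_singleton]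
        refine ⟨fun hy => hfix y hy.1 hy.2, fun hy => ?_⟩
        subst hy; exact ⟨hx, rfl⟩
      rw [this, hper, h1, Finset.card_singleton]
      omega
    · have : (Finset.univ.filter (fun y : X => g • y = y)).filter
          (fun y => cyclicOrbitOf g y = cyclicOrbitOf g x) = ∅ := by
        ext y
        simp only [Finset.mem_filter, Finset.mem_univ, true_and, Finset.notMem_empty, iff_false,
          not_and]
        intro hy hyo
        have := hfix y hy hyo
        subst this
        have := minimalPeriod_eq_one_iff_isFixedPt.2 (show IsFixedPt (g • ·) y from hy)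
        rw [h1] at this
        exact hp.out.one_lt.ne' this
      rw [this, hper, h1]
      simp
  calc p * Nat.card (CyclicOrbits g X)
      = ∑ _o : CyclicOrbits g X, p := by simp [Nat.card_eq_fintype_card, mul_comm]
    _ = _ := Finset.sum_congr rfl (fun o _ => hcard o)
    _ = Nat.card X + (p - 1) * Nat.card {x : X // g • x = x} := by
      rw [Finset.sum_add_distrib, ← Finset.mul_sum,
        ← Finset.card_eq_sum_card_fiberwise (fun x _ => Finset.mem_univ _),
        ← Finset.card_eq_sum_card_fiberwise (fun x _ => Finset.mem_univ _)]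
      simp [Nat.card_eq_fintype_card, Fintype.card_subtype]

end Count

end Fermat.Agent.Periods
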