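import Mathlib.LinearAlgebra.Matrix.FixedDetMatrices
import Mathlib.Algebra.Group.Subgroup.Pointwise
import Mathlib.GroupTheory.OrderOfElement
import Mathlib.LinearAlgebra.Matrix.Trace
import Mathlib.Tactic.LinearCombination
import Mathlib.Tactic.FinCases
import Mathlib.Tactic.IntervalCases

/-!
# The presentation of `SL(2, ℤ)` modulo `±1` as a free product

Every element of `SL(2, ℤ)` is `± U ^ a * w * S ^ b` with `U = S * T` and `w` a word in the
nonnegative matrices `T` and `L = !![1, 0; 1, 1]`; consequently `s, u` with `s ^ 2 = u ^ 3 = 1`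
define a homomorphism out of `SL(2, ℤ)`, and elements of finite order are conjugate to powers of
`S` or `U`.
-/

set_option autoImplicit false

namespace Fermat.Agent.Periods

open scoped MatrixGroups
open ModularGroup Matrix.SpecialLinearGroup

/-- The element `S * T` of order six. -/
def genU : SL(2, ℤ) := S * T

theorem coe_genU : (genU : Matrix (Fin 2) (Fin 2) ℤ) = !![0, -1; 1, 1] := by
  rw [genU, coe_mul, coe_S, coe_T]; simp

theorem S_mul_S : (S : SL(2, ℤ)) * S = -1 := by
  apply Subtype.ext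
  rw [coe_mul, coe_neg, coe_one, coe_S]
  simp [Matrix.one_fin_two]

theorem genU_pow_three : genU ^ 3 = -1 := by
  apply Subtype.ext
  rw [coe_pow, coe_neg, coe_one, coe_genU]
  simp [pow_succ, Matrix.one_fin_two]

theorem S_pow_two : (S : SL(2, ℤ)) ^ 2 = -1 := by rw [pow_two, S_mul_S]

theorem S_inv_mul_genU : (S : SL(2, ℤ))⁻¹ * genU = T := by simp [genU]

/-- The two positive letters: `false ↦ T`, `true ↦ T * S * T`. -/
def letterMat : Bool → SL(2, ℤ)
  | false => T
  | true => T * S * T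

theorem coe_letterMat_false : (letterMat false : Matrix (Fin 2) (Fin 2) ℤ) = !![1, 1; 0, 1] := rfl

theorem coe_letterMat_true : (letterMat true : Matrix (Fin 2) (Fin 2) ℤ) = !![1, 0; 1, 1] := by
  rw [letterMat, coe_mul, coe_mul, coe_S, coe_T]; simp

/-- The exponent of `U` corresponding to a letter: `S * letter = U ^ letterExp`. -/
def letterExp : Bool → ℕ
  | false => 1
  | true => 2

theorem S_mul_letterMat (l : Bool) : S * letterMat l = genU ^ letterExp l := by
  cases l <;> simp [letterMat, letterExp, genU, pow_two, mul_assoc]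

theorem S_mul_genU_pow_letterExp (l : Bool) : S * genU ^ letterExp l = -letterMat l := by
  rw [← S_mul_letterMat, ← mul_assoc, S_mul_S, neg_one_mul]

/-- A word in the positive letters. -/
def wordMat : List Bool → SL(2, ℤ)
  | [] => 1
  | l :: w => letterMat l * wordMat w

theorem wordMat_append (w v : List Bool) : wordMat (w ++ v) = wordMat w * wordMat v := by
  induction w with
  | nil => simp [wordMat]
  | cons l w ih => simp [wordMat, ih, mul_assoc]

theorem wordMat_singleton (l : Bool) : wordMat [l] = letterMat l := by simp [wordMat]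

theorem wordMat_entries (w : List Bool) :
    1 ≤ wordMat w 0 0 ∧ 0 ≤ wordMat w 0 1 ∧ 0 ≤ wordMat w 1 0 ∧ 1 ≤ wordMat w 1 1 ∧
      (w ≠ [] → 1 ≤ wordMat w 0 1 + wordMat w 1 0) := by
  induction w with
  | nil => simp [wordMat]
  | cons l w ih =>
    obtain ⟨h₀, h₁, h₂, h₃, -⟩ := ih
    have key : ∀ i j, wordMat (l :: w) i j =
        letterMat l i 0 * wordMat w 0 j + letterMat l i 1 * wordMat w 1 j := fun i j => by
      rw [wordMat, coe_mul, Matrix.mul_apply, Fin.sum_univ_two]
    simp only [key]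
    cases l
    · simp [coe_letterMat_false]; omega
    · simp [coe_letterMat_true]; omega

theorem eq_nil_of_wordMat_eq {w : List Bool} (h : wordMat w = 1 ∨ wordMat w = -1) : w = [] := by
  by_contra hw
  obtain ⟨-, -, -, -, h5⟩ := wordMat_entries w
  rcases h with h | h <;> simp [h] at h5 <;> exact absurd hw (by simpa using h5)

/-- The normal form is unique at `± 1`. -/
theorem normalForm_eq_one {a b : ℕ} {w : List Bool} (ha : a < 3) (hb : b < 2)
    (h : genU ^ a * wordMat w * S ^ b = 1 ∨ genU ^ a * wordMat w * S ^ b = -1) :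
    a = 0 ∧ b = 0 ∧ w = [] := by
  obtain ⟨h₀, h₁, h₂, h₃, -⟩ := wordMat_entries w
  have hU2 : ((genU ^ 2 : SL(2, ℤ)) : Matrix (Fin 2) (Fin 2) ℤ) = !![-1, -1; 1, 0] := by
    rw [coe_pow, coe_genU]; simp [pow_succ]
  have key : ∀ i j, (genU ^ a * wordMat w * S ^ b) i j = if i = j then
      (genU ^ a * wordMat w * S ^ b) 0 0 else 0 := by
    intro i j
    rcases h with h | h <;> rw [h] <;> fin_cases i <;> fin_cases j <;> simp
  have hab : a = 0 ∧ b = 0 := by
    have e1 := key 0 1
    have e2 := key 1 0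
    have e3 := key 1 1
    interval_cases a <;> interval_cases b <;>
      simp [Matrix.mul_apply, Fin.sum_univ_two, Matrix.vecMul, dotProduct, coe_genU, hU2, coe_S] at e1 e2 e3 ⊢ <;> omega
  obtain ⟨rfl, rfl⟩ := hab
  exact ⟨rfl, rfl, eq_nil_of_wordMat_eq (by simpa using h)⟩

section Hom

variable {H : Type*} [Group H] (s u : H)

/-- The image of a word. -/
def wordImg : List Bool → H
  | [] => 1
  | l :: w => s * u ^ letterExp l * wordImg w

/-- Pairs admitting compatible normal forms. -/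
def HasNormalPair (g : SL(2, ℤ)) (h : H) : Prop :=
  ∃ (a b : ℕ) (w : List Bool), a < 3 ∧ b < 2 ∧
    (g = genU ^ a * wordMat w * S ^ b ∨ g = -(genU ^ a * wordMat w * S ^ b)) ∧
    h = u ^ a * wordImg s u w * s ^ b

variable {s u}

theorem HasNormalPair.neg {g : SL(2, ℤ)} {h : H} (hp : HasNormalPair s u g h) :
    HasNormalPair s u (-g) h := by
  obtain ⟨a, b, w, ha, hb, hg, hh⟩ := hp
  refine ⟨a, b, w, ha, hb, ?_, hh⟩
  rcases hg with rfl | rfl <;> simp

theorem HasNormalPair.genU_mul (hu : u ^ 3 = 1) {g : SL(2, ℤ)} {h : H}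
    (hp : HasNormalPair s u g h) : HasNormalPair s u (genU * g) (u * h) := by
  obtain ⟨a, b, w, ha, hb, hg, rfl⟩ := hp
  suffices hs : HasNormalPair s u (genU * (genU ^ a * wordMat w * S ^ b))
      (u * (u ^ a * wordImg s u w * s ^ b)) by
    rcases hg with rfl | rfl
    · exact hs
    · rw [mul_neg]; exact hs.neg
  simp only [← mul_assoc, ← pow_succ']
  by_cases h2 : a + 1 < 3
  · exact ⟨a + 1, b, w, h2, hb, Or.inl rfl, rfl⟩
  · obtain rfl : a = 2 := by omega
    exact ⟨0, b, w, by omega, hb, Or.inr (by rw [genU_pow_three]; simp),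
      by rw [hu]; simp⟩

theorem HasNormalPair.S_mul (hs : s * s = 1) {g : SL(2, ℤ)} {h : H}
    (hp : HasNormalPair s u g h) : HasNormalPair s u (S * g) (s * h) := by
  obtain ⟨a, b, w, ha, hb, hg, rfl⟩ := hp
  suffices hs : HasNormalPair s u (S * (genU ^ a * wordMat w * S ^ b))
      (s * (u ^ a * wordImg s u w * s ^ b)) by
    rcases hg with rfl | rfl
    · exact hs
    · rw [mul_neg]; exact hs.neg
  interval_cases a
  · cases w with
    | nil =>
      interval_cases b
      · exact ⟨0, 1, [], by omega, by omega, Or.inl (by simp [wordMat]), by simp [wordImg]⟩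
      · exact ⟨0, 0, [], by omega, by omega, Or.inr (by simp [wordMat, S_mul_S]),
          by simp [wordImg, hs]⟩
    | cons l w =>
      refine ⟨letterExp l, b, w, by cases l <;> simp [letterExp], hb, Or.inl ?_, ?_⟩
      · simp [wordMat, ← mul_assoc, S_mul_letterMat]
      · simp [wordImg, ← mul_assoc, hs]
  · refine ⟨0, b, false :: w, by omega, hb, Or.inr ?_, ?_⟩
    · have := S_mul_genU_pow_letterExp false
      simp [letterExp] at this
      simp [wordMat, ← mul_assoc, this]
    · simp [wordImg, letterExp, mul_assoc]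
  · refine ⟨0, b, true :: w, by omega, hb, Or.inr ?_, ?_⟩
    · have := S_mul_genU_pow_letterExp true
      simp [letterExp] at this
      simp [wordMat, ← mul_assoc, this]
    · simp [wordImg, letterExp, mul_assoc]

variable (s u) in
/-- The subgroup generated by `(S, s)` and `(U, u)`. -/
def liftGraph : Subgroup (SL(2, ℤ) × H) := Subgroup.closure {(S, s), (genU, u)}

theorem hasNormalPair_of_mem (hs : s * s = 1) (hu : u ^ 3 = 1) {p : SL(2, ℤ) × H}
    (hp : p ∈ liftGraph s u) : HasNormalPair s u p.1 p.2 := by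
  have hUi : genU⁻¹ = -(genU * genU) := by
    apply inv_eq_of_mul_eq_one_right
    rw [mul_neg, ← pow_three, genU_pow_three, neg_neg]
  have hSi : (S : SL(2, ℤ))⁻¹ = -S := by
    apply inv_eq_of_mul_eq_one_right
    rw [mul_neg, S_mul_S, neg_neg]
  induction hp using Subgroup.closure_induction_left with
  | one => exact ⟨0, 0, [], by omega, by omega, Or.inl (by simp [wordMat]), by simp [wordImg]⟩
  | mul_left x hx y _ ih =>
    rcases hx with rfl | hx
    · exact ih.S_mul hs
    · rw [Set.mem_singleton_iff] at hx; subst hx; exact ih.genU_mul hu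
  | inv_mul_cancel x hx y _ ih =>
    rcases hx with rfl | hx
    · simp only [Prod.fst_mul, Prod.snd_mul, Prod.fst_inv, Prod.snd_inv]
      rw [hSi, inv_eq_of_mul_eq_one_right hs, neg_mul]
      exact (ih.S_mul hs).neg
    · rw [Set.mem_singleton_iff] at hx; subst hx
      simp only [Prod.fst_mul, Prod.snd_mul, Prod.fst_inv, Prod.snd_inv]
      have hui : u⁻¹ = u * u := inv_eq_of_mul_eq_one_right (by rw [← hu, pow_three])
      rw [hUi, hui, neg_mul, mul_assoc, mul_assoc]
      exact ((ih.genU_mul hu).genU_mul hu).neg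

theorem liftGraph_fst_surjective : Function.Surjective
    ((MonoidHom.fst SL(2, ℤ) H).comp (liftGraph s u).subtype) := by
  rw [← MonoidHom.range_eq_top, eq_top_iff, ← SpecialLinearGroup.SL2Z_generators,
    Subgroup.closure_le]
  have hS : (S, s) ∈ liftGraph s u := Subgroup.subset_closure (by simp)
  have hU : (genU, u) ∈ liftGraph s u := Subgroup.subset_closure (by simp)
  rintro x (rfl | rfl)
  · exact ⟨⟨_, hS⟩, rfl⟩
  · exact ⟨⟨_, mul_mem (inv_mem hS) hU⟩, by simp [S_inv_mul_genU]⟩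

theorem snd_eq_one_of_mem (hs : s * s = 1) (hu : u ^ 3 = 1) {p : SL(2, ℤ) × H}
    (hp : p ∈ liftGraph s u) (h1 : p.1 = 1 ∨ p.1 = -1) : p.2 = 1 := by
  obtain ⟨a, b, w, ha, hb, hg, hh⟩ := hasNormalPair_of_mem hs hu hp
  have h' : genU ^ a * wordMat w * S ^ b = 1 ∨ genU ^ a * wordMat w * S ^ b = -1 := by
    rcases hg with hg | hg <;> rcases h1 with h | h <;> rw [h] at hg
    · exact Or.inl hg.symm
    · exact Or.inr hg.symm
    · exact Or.inr (by rw [hg, neg_neg])
    · exact Or.inl (by rw [← neg_inj, ← hg])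
  obtain ⟨rfl, rfl, rfl⟩ := normalForm_eq_one ha hb h'
  simp [hh, wordImg]

/-- The homomorphism out of `SL(2, ℤ)` with `S ↦ s`, `S * T ↦ u`, `-1 ↦ 1`. -/
noncomputable def liftHom (hs : s * s = 1) (hu : u ^ 3 = 1) : SL(2, ℤ) →* H :=
  ((MonoidHom.snd SL(2, ℤ) H).comp (liftGraph s u).subtype).comp
    (MulEquiv.ofBijective ((MonoidHom.fst SL(2, ℤ) H).comp (liftGraph s u).subtype)
      ⟨(injective_iff_map_eq_one _).2 fun p hp =>
          Subtype.ext (Prod.ext hp (snd_eq_one_of_mem hs hu p.2 (Or.inl hp))),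
        liftGraph_fst_surjective⟩).symm.toMonoidHom

theorem liftHom_eq (hs : s * s = 1) (hu : u ^ 3 = 1) {g : SL(2, ℤ)} {h : H}
    (hp : (g, h) ∈ liftGraph s u) : liftHom hs hu g = h := by
  have : (MulEquiv.ofBijective ((MonoidHom.fst SL(2, ℤ) H).comp (liftGraph s u).subtype)
      ⟨(injective_iff_map_eq_one _).2 fun p hp =>
          Subtype.ext (Prod.ext hp (snd_eq_one_of_mem hs hu p.2 (Or.inl hp))),
        liftGraph_fst_surjective⟩).symm g = ⟨(g, h), hp⟩ := by
    rw [MulEquiv.symm_apply_eq]; rfl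
  simp only [liftHom, MonoidHom.comp_apply, MulEquiv.coe_toMonoidHom, this]
  rfl

theorem liftHom_S (hs : s * s = 1) (hu : u ^ 3 = 1) : liftHom hs hu S = s :=
  liftHom_eq hs hu (Subgroup.subset_closure (by simp))

theorem liftHom_genU (hs : s * s = 1) (hu : u ^ 3 = 1) : liftHom hs hu genU = u :=
  liftHom_eq hs hu (Subgroup.subset_closure (by simp))

theorem liftHom_neg_one (hs : s * s = 1) (hu : u ^ 3 = 1) : liftHom hs hu (-1) = 1 := by
  rw [← S_mul_S, map_mul, liftHom_S, hs]

end Hom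

theorem exists_normalForm (g : SL(2, ℤ)) : ∃ (a b : ℕ) (w : List Bool), a < 3 ∧ b < 2 ∧
    (g = genU ^ a * wordMat w * S ^ b ∨ g = -(genU ^ a * wordMat w * S ^ b)) := by
  have hs : (1 : Unit) * 1 = 1 := rfl
  have hu : (1 : Unit) ^ 3 = 1 := rfl
  obtain ⟨⟨p, hp⟩, hpg⟩ := liftGraph_fst_surjective (s := (1 : Unit)) (u := 1) g
  obtain ⟨a, b, w, ha, hb, hg, -⟩ := hasNormalPair_of_mem hs hu hp
  simp at hpg
  exact ⟨a, b, w, ha, hb, hpg ▸ hg⟩

/-- `g` is conjugate, up to sign, to a power of `U`, to `S`, or to a nontrivial positive word. -/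
def IsReducedForm (g : SL(2, ℤ)) : Prop :=
  ∃ r : SL(2, ℤ), (∃ k : ℕ, r * g * r⁻¹ = S ^ k ∨ r * g * r⁻¹ = genU ^ k) ∨
    ∃ w : List Bool, w ≠ [] ∧ (r * g * r⁻¹ = wordMat w ∨ r * g * r⁻¹ = -wordMat w)

theorem IsReducedForm.of_conj {g : SL(2, ℤ)} (r : SL(2, ℤ)) (h : IsReducedForm (r * g * r⁻¹)) :
    IsReducedForm g := by
  obtain ⟨r', h⟩ := h
  refine ⟨r' * r, ?_⟩
  rwa [show r' * r * g * (r' * r)⁻¹ = r' * (r * g * r⁻¹) * r'⁻¹ by group]

theorem IsReducedForm.neg {g : SL(2, ℤ)} (h : IsReducedForm g) : IsReducedForm (-g) := by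
  obtain ⟨r, h⟩ := h
  refine ⟨r, ?_⟩
  have e : r * -g * r⁻¹ = -(r * g * r⁻¹) := by simp
  rw [e]
  rcases h with ⟨k, h | h⟩ | ⟨w, hw, h | h⟩ <;> rw [h]
  · exact Or.inl ⟨k + 2, Or.inl (by rw [pow_add, S_pow_two]; simp)⟩
  · exact Or.inl ⟨k + 3, Or.inr (by rw [pow_add, genU_pow_three]; simp)⟩
  · exact Or.inr ⟨w, hw, Or.inr rfl⟩
  · exact Or.inr ⟨w, hw, Or.inl (neg_neg _)⟩

theorem isReducedForm_normalForm (w : List Bool) : ∀ a b : ℕ, a < 3 → b < 2 →
    IsReducedForm (genU ^ a * wordMat w * S ^ b) := by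
  induction hn : w.length using Nat.strong_induction_on generalizing w with
  | _ n ih =>
    intro a b ha hb
    interval_cases b
    · rcases List.eq_nil_or_concat w with rfl | ⟨v, l, rfl⟩
      · exact ⟨1, Or.inl ⟨a, Or.inr (by simp [wordMat])⟩⟩
      · rw [List.concat_eq_append] at hn ⊢
        rcases Nat.eq_zero_or_pos a with rfl | hpos
        · exact ⟨1, Or.inr ⟨v ++ [l], by simp, Or.inl (by simp)⟩⟩
        · have hl : letterMat l = -(S * genU ^ letterExp l) := by
            rw [S_mul_genU_pow_letterExp, neg_neg]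
          refine IsReducedForm.of_conj (genU ^ letterExp l) ?_
          have e : genU ^ letterExp l * (genU ^ a * wordMat (v ++ [l]) * S ^ 0) *
              (genU ^ letterExp l)⁻¹ = -(genU ^ (letterExp l + a) * wordMat v * S ^ 1) := by
            rw [wordMat_append, wordMat_singleton, hl, pow_zero, pow_one, mul_one, pow_add]
            simp [mul_assoc]
          rw [e]
          refine IsReducedForm.neg ?_
          have hlt : v.length < n := by simp at hn; omega
          by_cases h3 : letterExp l + a < 3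
          · exact ih _ hlt v rfl _ 1 h3 (by omega)
          · have h4 : letterExp l + a = (letterExp l + a - 3) + 3 := by omega
            have hle : letterExp l + a - 3 < 3 := by cases l <;> simp [letterExp] <;> omega
            have e2 : genU ^ (letterExp l + a) * wordMat v * S ^ 1 =
                -(genU ^ (letterExp l + a - 3) * wordMat v * S ^ 1) := by
              conv_lhs => rw [h4, pow_add, genU_pow_three]
              simp
            rw [e2]
            exact (ih _ hlt v rfl _ 1 hle (by omega)).neg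
    · refine IsReducedForm.of_conj S ?_
      have e : S * (genU ^ a * wordMat w * S ^ 1) * S⁻¹ = S * genU ^ a * wordMat w := by
        simp [mul_assoc]
      rw [e]
      rcases Nat.eq_zero_or_pos a with rfl | hpos
      · cases w with
        | nil => exact ⟨1, Or.inl ⟨1, Or.inl (by simp [wordMat])⟩⟩
        | cons l v =>
          have e : S * genU ^ 0 * wordMat (l :: v) = genU ^ letterExp l * wordMat v * S ^ 0 := by
            simp [wordMat, ← mul_assoc, S_mul_letterMat]
          rw [e]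
          exact ih _ (by simp at hn; omega) v rfl _ 0 (by cases l <;> simp [letterExp]) (by omega)
      · obtain ⟨l, rfl⟩ : ∃ l, a = letterExp l := by
          interval_cases a
          · exact ⟨false, rfl⟩
          · exact ⟨true, rfl⟩
        rw [S_mul_genU_pow_letterExp, neg_mul]
        exact IsReducedForm.neg ⟨1, Or.inr ⟨l :: w, by simp, Or.inl (by simp [wordMat])⟩⟩

theorem isReducedForm (g : SL(2, ℤ)) : IsReducedForm g := by
  obtain ⟨a, b, w, ha, hb, hg⟩ := exists_normalForm g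
  rcases hg with rfl | rfl
  · exact isReducedForm_normalForm w a b ha hb
  · exact (isReducedForm_normalForm w a b ha hb).neg

/-- Elements of finite order are conjugate to powers of `S` or of `U = S * T`. -/
theorem exists_conj_of_isOfFinOrder {g : SL(2, ℤ)} (hg : IsOfFinOrder g) :
    ∃ r : SL(2, ℤ), ∃ k : ℕ, r * g * r⁻¹ = S ^ k ∨ r * g * r⁻¹ = genU ^ k := by
  obtain ⟨r, h | ⟨w, hw, h⟩⟩ := isReducedForm g
  · exact ⟨r, h⟩
  exfalso
  obtain ⟨n, hn, hgn⟩ := isOfFinOrder_iff_pow_eq_one.1 hg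
  have hpow : ∀ m, ∃ v : List Bool, (0 < m → v ≠ []) ∧
      ((r * g * r⁻¹) ^ m = wordMat v ∨ (r * g * r⁻¹) ^ m = -wordMat v) := by
    intro m
    induction m with
    | zero => exact ⟨[], fun h => absurd h (lt_irrefl 0), Or.inl (by simp [wordMat])⟩
    | succ m ihm =>
      obtain ⟨v, -, hv⟩ := ihm
      refine ⟨v ++ w, fun _ => by simp [hw], ?_⟩
      rw [pow_succ, wordMat_append]
      rcases hv with hv | hv <;> rcases h with h | h <;> rw [hv, h] <;> simp
  obtain ⟨v, hv, hv'⟩ := hpow n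
  rw [conj_pow, hgn, mul_one, mul_inv_cancel] at hv'
  refine hv hn (eq_nil_of_wordMat_eq ?_)
  rcases hv' with h' | h'
  · exact Or.inl h'.symm
  · exact Or.inr (by rw [h', neg_neg])

/-- A matrix of trace squared four is conjugate to `± T ^ k`. -/
theorem exists_conj_of_trace_sq {g : SL(2, ℤ)}
    (hg : (g : Matrix (Fin 2) (Fin 2) ℤ).trace ^ 2 = 4) :
    ∃ r : SL(2, ℤ), ∃ k : ℤ, r * g * r⁻¹ = T ^ k ∨ r * g * r⁻¹ = -(T ^ k) := by
  have main : ∀ g : SL(2, ℤ), g 0 0 + g 1 1 = 2 →
      ∃ r : SL(2, ℤ), ∃ k : ℤ, r * g * r⁻¹ = T ^ k := by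
    intro g htr
    have hdet : g 0 0 * g 1 1 - g 0 1 * g 1 0 = 1 := (Matrix.det_fin_two _).symm.trans g.det_coe
    have h11 : g 1 1 = 2 - g 0 0 := by omega
    obtain ⟨u, v, x, y, hxy, hu, hv⟩ : ∃ u v x y : ℤ, u * x + v * y = 1 ∧
        (g 0 0 - 1) * u + g 0 1 * v = 0 ∧ g 1 0 * u + (g 1 1 - 1) * v = 0 := by
      by_cases hr : g 1 0 = 0
      · refine ⟨1, 0, 1, 0, by ring, ?_, by simp [hr]⟩
        have : (g 0 0 - 1) ^ 2 = 0 := by rw [hr] at hdet; rw [h11] at hdet; linear_combination -hdet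
        simp [sq_eq_zero_iff.1 this]
      · obtain ⟨G, hG⟩ : ∃ G : ℤ, G = Int.gcd (g 0 0 - 1) (g 1 0) := ⟨_, rfl⟩
        have hG0 : G ≠ 0 := by simp [hG, Int.gcd_eq_zero_iff, hr]
        obtain ⟨u, hu⟩ : G ∣ g 0 0 - 1 := hG ▸ Int.gcd_dvd_left _ _
        obtain ⟨v, hv⟩ : G ∣ g 1 0 := hG ▸ Int.gcd_dvd_right _ _
        have hb := Int.gcd_eq_gcd_ab (g 0 0 - 1) (g 1 0)
        rw [← hG] at hb
        refine ⟨u, v, Int.gcdA (g 0 0 - 1) (g 1 0), Int.gcdB (g 0 0 - 1) (g 1 0), ?_, ?_, ?_⟩
        · apply mul_left_cancel₀ hG0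
          linear_combination -hb - Int.gcdA (g 0 0 - 1) (g 1 0) * hu -
            Int.gcdB (g 0 0 - 1) (g 1 0) * hv
        · apply mul_left_cancel₀ hG0
          rw [h11] at hdet
          linear_combination -(g 0 0 - 1) * hu - g 0 1 * hv - hdet
        · apply mul_left_cancel₀ hG0
          rw [h11]
          linear_combination -g 1 0 * hu + (g 0 0 - 1) * hv
    obtain ⟨P, hP⟩ : ∃ P : SL(2, ℤ), (P : Matrix (Fin 2) (Fin 2) ℤ) = !![x, y; -v, u] :=
      ⟨⟨!![x, y; -v, u], by rw [Matrix.det_fin_two_of]; linear_combination hxy⟩, rfl⟩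
    refine ⟨P, (P * g * P⁻¹) 0 1, ?_⟩
    have c00 : g 0 0 * u + g 0 1 * v = u := by linear_combination hu
    have c10 : g 1 0 * u + g 1 1 * v = v := by linear_combination hv
    have e : ((P * g * P⁻¹ : SL(2, ℤ)) : Matrix (Fin 2) (Fin 2) ℤ) =
        !![x, y; -v, u] * (g : Matrix (Fin 2) (Fin 2) ℤ) * !![u, -y; v, x] := by
      rw [coe_mul, coe_mul, coe_inv, hP, Matrix.adjugate_fin_two_of, neg_neg]
    ext i j
    rw [coe_T_zpow, e]
    fin_cases i <;> fin_cases j <;> simp [Matrix.mul_apply, Fin.sum_univ_two, Matrix.vecMul, dotProduct]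
    · linear_combination x * c00 + y * c10 + hxy
    · linear_combination -v * c00 + u * c10
    · linear_combination -x * c00 - y * c10 + (u * x + v * y) * htr + hxy
  rw [Matrix.trace_fin_two] at hg
  rcases eq_or_eq_neg_of_sq_eq_sq (g 0 0 + g 1 1) 2 (by rw [hg]; norm_num) with h | h
  · obtain ⟨r, k, hk⟩ := main g h
    exact ⟨r, k, Or.inl hk⟩
  · obtain ⟨r, k, hk⟩ := main (-g) (by simp; omega)
    exact ⟨r, k, Or.inr (by rw [← hk]; simp)⟩

end Fermat.Agent.Periods
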