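import Mathlib.GroupTheory.GroupAction.Quotient
import Mathlib.LinearAlgebra.Prod
import Fermat.Agent.Periods.Defs
import Fermat.Agent.Periods.Group.Presentation
import Fermat.Agent.Periods.Group.OrbitSum

/-!
# Cuspidal homomorphisms of a subgroup of `SL(2, ℤ)` as cocycles on its cosets
-/

set_option autoImplicit false

noncomputable section

namespace Fermat.Agent.Periods

open scoped MatrixGroups
open ModularGroup Matrix.SpecialLinearGroup MulAction ModularCurve.Period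

theorem trace_neg_sq (g : SL(2, ℤ)) :
    Matrix.trace ((-g : SL(2, ℤ)) : Matrix (Fin 2) (Fin 2) ℤ) ^ 2 =
      Matrix.trace (g : Matrix (Fin 2) (Fin 2) ℤ) ^ 2 := by
  rw [coe_neg, Matrix.trace_neg, neg_sq]

theorem trace_conj (r g : SL(2, ℤ)) :
    Matrix.trace ((r⁻¹ * g * r : SL(2, ℤ)) : Matrix (Fin 2) (Fin 2) ℤ) =
      Matrix.trace (g : Matrix (Fin 2) (Fin 2) ℤ) := by
  rw [Matrix.SpecialLinearGroup.coe_mul, Matrix.SpecialLinearGroup.coe_mul, Matrix.trace_mul_cycle,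
    ← Matrix.SpecialLinearGroup.coe_mul, mul_inv_cancel, Matrix.SpecialLinearGroup.coe_one, one_mul]

theorem trace_T_zpow_sq (k : ℤ) :
    Matrix.trace ((T ^ k : SL(2, ℤ)) : Matrix (Fin 2) (Fin 2) ℤ) ^ 2 = 4 := by
  rw [coe_T_zpow, Matrix.trace_fin_two_of]; norm_num

theorem trace_pow_sq_le {g : SL(2, ℤ)} {n : ℕ} (hn : 0 < n) (hg : g ^ n = -1)
    (h : ∀ r < n, Matrix.trace ((g ^ r : SL(2, ℤ)) : Matrix (Fin 2) (Fin 2) ℤ) ^ 2 ≤ 4) (w : ℕ) :
    Matrix.trace ((g ^ w : SL(2, ℤ)) : Matrix (Fin 2) (Fin 2) ℤ) ^ 2 ≤ 4 := by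
  rw [← Nat.mod_add_div w n, pow_add, pow_mul, hg]
  rcases neg_one_pow_eq_or SL(2, ℤ) (w / n) with e | e <;> rw [e]
  · rw [mul_one]; exact h _ (Nat.mod_lt _ hn)
  · rw [mul_neg, mul_one, trace_neg_sq]; exact h _ (Nat.mod_lt _ hn)

theorem trace_S_pow_sq_le (w : ℕ) :
    Matrix.trace ((S ^ w : SL(2, ℤ)) : Matrix (Fin 2) (Fin 2) ℤ) ^ 2 ≤ 4 := by
  refine trace_pow_sq_le (by norm_num) S_pow_two (fun r hr => ?_) w
  interval_cases r <;> simp [coe_S, Matrix.trace_fin_two]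

theorem trace_genU_pow_sq_le (w : ℕ) :
    Matrix.trace ((genU ^ w : SL(2, ℤ)) : Matrix (Fin 2) (Fin 2) ℤ) ^ 2 ≤ 4 := by
  refine trace_pow_sq_le (by norm_num) genU_pow_three (fun r hr => ?_) w
  interval_cases r <;> simp [coe_genU, pow_two, Matrix.trace_fin_two]

/-- An element with trace squared less than four has finite order. -/
theorem isOfFinOrder_of_trace_sq_lt {g : SL(2, ℤ)}
    (h : Matrix.trace (g : Matrix (Fin 2) (Fin 2) ℤ) ^ 2 < 4) : IsOfFinOrder g := by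
  rw [Matrix.trace_fin_two] at h
  have hdet : g 0 0 * g 1 1 - g 0 1 * g 1 0 = 1 := (Matrix.det_fin_two _).symm.trans g.det_coe
  have h1 : -1 ≤ g 0 0 + g 1 1 ∧ g 0 0 + g 1 1 ≤ 1 := by constructor <;> nlinarith
  have hCH : ((g * g : SL(2, ℤ)) : Matrix (Fin 2) (Fin 2) ℤ) =
      ((g 0 0 + g 1 1 : ℤ) • (g : Matrix (Fin 2) (Fin 2) ℤ)) - 1 := by
    ext i j
    rw [Matrix.SpecialLinearGroup.coe_mul, Matrix.sub_apply, Matrix.smul_apply, Matrix.mul_apply,
      Fin.sum_univ_two, smul_eq_mul]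
    fin_cases i <;> fin_cases j <;> simp
    · linear_combination -hdet
    · ring
    · ring
    · linear_combination -hdet
  refine isOfFinOrder_iff_pow_eq_one.2 ⟨12, by norm_num, ?_⟩
  obtain ht | ht | ht : g 0 0 + g 1 1 = -1 ∨ g 0 0 + g 1 1 = 0 ∨ g 0 0 + g 1 1 = 1 := by omega
  all_goals rw [ht] at hCH
  · have e : g ^ 3 = 1 := by
      apply Subtype.ext
      rw [pow_three, Matrix.SpecialLinearGroup.coe_mul, hCH, Matrix.SpecialLinearGroup.coe_one,
        neg_smul, one_smul, mul_sub, mul_one, mul_neg, ← Matrix.SpecialLinearGroup.coe_mul, hCH,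
        neg_smul, one_smul]
      abel
    rw [show (12 : ℕ) = 3 * 4 from rfl, pow_mul, e, one_pow]
  · have e : g * g = -1 := by
      apply Subtype.ext; rw [hCH, zero_smul, zero_sub, Matrix.SpecialLinearGroup.coe_neg,
        Matrix.SpecialLinearGroup.coe_one]
    rw [show (12 : ℕ) = 2 * 6 from rfl, pow_mul, pow_two, e, Even.neg_one_pow ⟨3, rfl⟩]
  · have e : g ^ 3 = -1 := by
      apply Subtype.ext
      rw [pow_three, Matrix.SpecialLinearGroup.coe_mul, hCH, Matrix.SpecialLinearGroup.coe_neg,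
        Matrix.SpecialLinearGroup.coe_one, one_smul, mul_sub, mul_one,
        ← Matrix.SpecialLinearGroup.coe_mul, hCH, one_smul]
      abel
    rw [show (12 : ℕ) = 3 * 4 from rfl, pow_mul, e, Even.neg_one_pow ⟨2, rfl⟩]

theorem isCuspidalHom_iff_of_torsionFree {Γ : Subgroup SL(2, ℤ)} {A : Type*} [AddCommGroup A]
    [IsAddTorsionFree A] {φ : Additive Γ →+ A} : IsCuspidalHom φ ↔ IsParabolicHom Γ φ := by
  refine ⟨fun h γ hγ => h γ hγ.le, fun h γ hγ => ?_⟩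
  rcases hγ.lt_or_eq with hlt | heq
  · obtain ⟨n, hn, hγn⟩ := isOfFinOrder_iff_pow_eq_one.1 (isOfFinOrder_of_trace_sq_lt hlt)
    have hγn' : γ ^ n = 1 := Subtype.ext (by simpa using hγn)
    have h0 : n • φ (Additive.ofMul γ) = 0 := by
      rw [← map_nsmul, ← ofMul_pow, hγn', ofMul_one, map_zero]
    exact (nsmul_eq_zero_iff_right hn.ne').1 h0
  · exact h γ heq

variable {Γ : Subgroup SL(2, ℤ)} {A : Type*} [AddCommGroup A]

/-- The additive one-cocycle condition. -/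
def IsCoc (c : SL(2, ℤ) → SL(2, ℤ) ⧸ Γ → A) : Prop :=
  ∀ g h x, c (g * h) x = c g (h • x) + c h x

/-- The base coset. -/
abbrev baseCoset (Γ : Subgroup SL(2, ℤ)) : SL(2, ℤ) ⧸ Γ := ((1 : SL(2, ℤ)) : SL(2, ℤ) ⧸ Γ)

theorem smul_baseCoset (g : SL(2, ℤ)) : g • baseCoset Γ = (g : SL(2, ℤ) ⧸ Γ) := by
  simp [baseCoset]

theorem smul_baseCoset_out (x : SL(2, ℤ) ⧸ Γ) : x.out • baseCoset Γ = x := by
  rw [smul_baseCoset, QuotientGroup.out_eq']

theorem smul_baseCoset_eq_iff (g : SL(2, ℤ)) : g • baseCoset Γ = baseCoset Γ ↔ g ∈ Γ := by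
  rw [smul_baseCoset, QuotientGroup.eq]; simp

theorem exists_smul_baseCoset (x : SL(2, ℤ) ⧸ Γ) : ∃ g : SL(2, ℤ), g • baseCoset Γ = x :=
  ⟨x.out, smul_baseCoset_out x⟩

theorem neg_one_smul_coset (hneg : (-1 : SL(2, ℤ)) ∈ Γ) (x : SL(2, ℤ) ⧸ Γ) :
    (-1 : SL(2, ℤ)) • x = x := by
  obtain ⟨g, rfl⟩ := exists_smul_baseCoset x
  rw [smul_smul, show (-1 : SL(2, ℤ)) * g = g * -1 by simp, ← smul_smul,
    (smul_baseCoset_eq_iff _).2 hneg]

namespace IsCoc

variable {c : SL(2, ℤ) → SL(2, ℤ) ⧸ Γ → A}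

theorem apply_one (hc : IsCoc c) (x : SL(2, ℤ) ⧸ Γ) : c 1 x = 0 := by
  have := hc 1 1 x
  simpa using this

theorem apply_inv (hc : IsCoc c) (g : SL(2, ℤ)) (x : SL(2, ℤ) ⧸ Γ) :
    c g⁻¹ (g • x) + c g x = 0 := by
  rw [← hc, inv_mul_cancel, hc.apply_one]

theorem apply_pow (hc : IsCoc c) (g : SL(2, ℤ)) (n : ℕ) (x : SL(2, ℤ) ⧸ Γ) :
    c (g ^ n) x = ∑ i ∈ Finset.range n, c g (g ^ i • x) := by
  induction n with
  | zero => simp [hc.apply_one]
  | succ n ih => rw [pow_succ', hc, Finset.sum_range_succ, ih, add_comm]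

theorem apply_conj (hc : IsCoc c) (r g : SL(2, ℤ)) (x : SL(2, ℤ) ⧸ Γ) (hg : g • x = x) :
    c (r * g * r⁻¹) (r • x) = c g x := by
  rw [hc, inv_smul_smul, hc, hg]
  linear_combination (norm := abel) hc.apply_inv r x

theorem apply_zpow_eq_zero (hc : IsCoc c) {g : SL(2, ℤ)} [Fintype (SL(2, ℤ) ⧸ Γ)]
    (hg : orbitSum g (c g) = 0) (k : ℤ) (x : SL(2, ℤ) ⧸ Γ) (hk : g ^ k • x = x) :
    c (g ^ k) x = 0 := by
  obtain ⟨n, rfl | rfl⟩ := k.eq_nat_or_neg
  · rw [zpow_natCast] at hk ⊢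
    rw [hc.apply_pow]
    exact sum_range_eq_zero_of_orbitSum hg hk
  · rw [zpow_neg, zpow_natCast] at hk ⊢
    have hk' : g ^ n • x = x := by rw [inv_smul_eq_iff] at hk; exact hk.symm
    have := hc.apply_inv (g ^ n) x
    rw [hk', hc.apply_pow g n, sum_range_eq_zero_of_orbitSum hg hk', add_zero] at this
    exact this

/-- Two cocycles agreeing on `S` and `U` are equal. -/
theorem eq_of_generators {c c' : SL(2, ℤ) → SL(2, ℤ) ⧸ Γ → A} (hc : IsCoc c) (hc' : IsCoc c')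
    (hS : c S = c' S) (hU : c genU = c' genU) : c = c' := by
  funext g
  let P : Subgroup SL(2, ℤ) :=
    { carrier := {g | c g = c' g}
      one_mem' := by funext x; rw [hc.apply_one, hc'.apply_one]
      mul_mem' := fun {a b} ha hb => by
        funext x
        rw [hc, hc', show c a = c' a from ha, show c b = c' b from hb]
      inv_mem' := fun {a} ha => by
        funext x
        have h1 := hc.apply_inv a (a⁻¹ • x)
        have h2 := hc'.apply_inv a (a⁻¹ • x)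
        rw [smul_inv_smul, show c a = c' a from ha] at h1
        rw [smul_inv_smul] at h2
        linear_combination (norm := abel) h1 - h2 }
  have hT : T ∈ P := S_inv_mul_genU ▸ mul_mem (inv_mem (show S ∈ P from hS)) hU
  have : Subgroup.closure {S, T} ≤ P := (Subgroup.closure_le _).2 (by
    rintro x (rfl | rfl)
    · exact hS
    · exact hT)
  exact this (SpecialLinearGroup.SL2Z_generators ▸ Subgroup.mem_top g)

/-- The homomorphism on `Γ` attached to a cocycle. -/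
def toHom (hc : IsCoc c) : Additive Γ →+ A where
  toFun γ := c ((Additive.toMul γ : Γ) : SL(2, ℤ)) (baseCoset Γ)
  map_zero' := hc.apply_one _
  map_add' γ δ := by
    show c (((Additive.toMul γ : Γ) : SL(2, ℤ)) * ((Additive.toMul δ : Γ) : SL(2, ℤ))) _ = _
    rw [hc, (smul_baseCoset_eq_iff _).2 (Additive.toMul δ).2]

@[simp] theorem toHom_apply (hc : IsCoc c) (γ : Γ) :
    hc.toHom (Additive.ofMul γ) = c (γ : SL(2, ℤ)) (baseCoset Γ) := rfl

theorem isCuspidalHom_toHom (hc : IsCoc c) (hneg : (-1 : SL(2, ℤ)) ∈ Γ)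
    [Fintype (SL(2, ℤ) ⧸ Γ)] (hS : orbitSum S (c S) = 0) (hU : orbitSum genU (c genU) = 0)
    (hT : orbitSum T (c T) = 0) : IsCuspidalHom hc.toHom := by
  have hneg0 : ∀ x, c (-1) x = 0 := fun x => by
    have := hc.apply_zpow_eq_zero hS 2 x
    rw [show (S : SL(2, ℤ)) ^ (2 : ℤ) = -1 by rw [zpow_two, S_mul_S]] at this
    exact this (neg_one_smul_coset hneg x)
  have key : ∀ (γ : Γ) (r g : SL(2, ℤ)), r * γ * r⁻¹ = g →
      c (γ : SL(2, ℤ)) (baseCoset Γ) = c g (r • baseCoset Γ) ∧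
        g • (r • baseCoset Γ) = r • baseCoset Γ := by
    rintro γ r g rfl
    refine ⟨(hc.apply_conj r _ _ ((smul_baseCoset_eq_iff _).2 γ.2)).symm, ?_⟩
    rw [smul_smul, inv_mul_cancel_right, ← smul_smul, (smul_baseCoset_eq_iff _).2 γ.2]
  intro γ hγ
  rcases hγ.lt_or_eq with hlt | heq
  · obtain ⟨r, k, h | h⟩ := exists_conj_of_isOfFinOrder (isOfFinOrder_of_trace_sq_lt hlt)
    · obtain ⟨e1, e2⟩ := key γ r _ h
      rw [toHom_apply, e1, ← zpow_natCast]
      exact hc.apply_zpow_eq_zero hS k _ (by rw [zpow_natCast]; exact e2)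
    · obtain ⟨e1, e2⟩ := key γ r _ h
      rw [toHom_apply, e1, ← zpow_natCast]
      exact hc.apply_zpow_eq_zero hU k _ (by rw [zpow_natCast]; exact e2)
  · obtain ⟨r, k, h | h⟩ := exists_conj_of_trace_sq heq
    · obtain ⟨e1, e2⟩ := key γ r _ h
      rw [toHom_apply, e1]; exact hc.apply_zpow_eq_zero hT k _ e2
    · obtain ⟨e1, e2⟩ := key γ r _ h
      rw [← neg_one_mul] at e1 e2
      rw [toHom_apply, e1, hc, hneg0, zero_add]
      rw [mul_smul, neg_one_smul_coset hneg] at e2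
      exact hc.apply_zpow_eq_zero hT k _ e2

end IsCoc

section OfHom

variable (φ : Additive Γ →+ A)

theorem out_conj_mem (g : SL(2, ℤ)) (x : SL(2, ℤ) ⧸ Γ) : (g • x).out⁻¹ * g * x.out ∈ Γ := by
  rw [← smul_baseCoset_eq_iff, mul_assoc, ← smul_smul, ← smul_smul, smul_baseCoset_out,
    inv_smul_eq_iff, smul_baseCoset_out]

/-- The cocycle of a homomorphism, with respect to the representatives `x.out`. -/
def homCoc (g : SL(2, ℤ)) (x : SL(2, ℤ) ⧸ Γ) : A :=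
  φ (Additive.ofMul ⟨(g • x).out⁻¹ * g * x.out, out_conj_mem g x⟩)

theorem isCoc_homCoc : IsCoc (homCoc φ) := by
  intro g h x
  rw [homCoc, homCoc, homCoc, ← map_add, ← ofMul_mul]
  congr 2
  apply Subtype.ext
  show ((g * h) • x).out⁻¹ * (g * h) * x.out = _
  rw [Subgroup.coe_mul]
  rw [mul_smul]
  group

theorem toHom_homCoc : (isCoc_homCoc φ).toHom = φ := by
  refine AddMonoidHom.ext fun γ => ?_
  obtain ⟨γ, rfl⟩ := Additive.ofMul.surjective γ
  rw [IsCoc.toHom_apply, homCoc]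
  have hmem : (baseCoset Γ).out ∈ Γ :=
    (smul_baseCoset_eq_iff _).1 (smul_baseCoset_out _)
  have e : (⟨((γ : SL(2, ℤ)) • baseCoset Γ).out⁻¹ * γ * (baseCoset Γ).out, out_conj_mem _ _⟩ : Γ)
      = ⟨_, hmem⟩⁻¹ * γ * ⟨_, hmem⟩ := by
    apply Subtype.ext
    simp [(smul_baseCoset_eq_iff _).2 γ.2]
  rw [e, ofMul_mul, ofMul_mul, ofMul_inv, map_add, map_add, map_neg]
  abel

theorem orbitSum_homCoc [Fintype (SL(2, ℤ) ⧸ Γ)] (hφ : IsCuspidalHom φ) {g : SL(2, ℤ)}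
    (hg : ∀ w : ℕ, Matrix.trace ((g ^ w : SL(2, ℤ)) : Matrix (Fin 2) (Fin 2) ℤ) ^ 2 ≤ 4) :
    orbitSum g (homCoc φ g) = 0 := by
  funext o
  obtain ⟨x, rfl⟩ : ∃ x, cyclicOrbitOf g x = o := ⟨o.out, Quotient.out_eq' o⟩
  rw [← sum_range_period, ← (isCoc_homCoc φ).apply_pow, Pi.zero_apply, homCoc]
  set w := Function.minimalPeriod (g • ·) x
  have hwx : g ^ w • x = x := MulAction.pow_smul_eq_iff_minimalPeriod_dvd.2 dvd_rfl
  refine hφ _ ?_
  show Matrix.trace (((g ^ w • x).out⁻¹ * g ^ w * x.out : SL(2, ℤ)) :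
    Matrix (Fin 2) (Fin 2) ℤ) ^ 2 ≤ 4
  rw [hwx, trace_conj]
  exact hg w

end OfHom

end Fermat.Agent.Periods
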